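import Fermat.Agent.MultKummer.Independence

/-!
# Kummer extensions are abelian

The field of several radicals over a field with the roots of unity is Galois and abelian.
-/

set_option autoImplicit false
set_option linter.unusedSectionVars false

noncomputable section

open IntermediateField

namespace FA.MultKummer

variable {F Ω : Type*} [Field F] [Field Ω] [Algebra F Ω] [IsGalois F Ω] {N : ℕ} [NeZero N]
  {κ : Type*} (b : κ → Ω)

/-- The field of several radicals is normal. -/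
theorem normal_adjoin_radicals (hμ : ∀ ζ : Ω, ζ ^ N = 1 → ζ ∈ (algebraMap F Ω).range)
    (hb : ∀ i, b i ^ N ∈ (algebraMap F Ω).range) : Normal F (adjoin F (Set.range b)) := by
  rw [normal_iff_forall_map_le']
  intro σ
  rw [adjoin_map, adjoin_le_iff]
  rintro _ ⟨_, ⟨i, rfl⟩, rfl⟩
  by_cases h0 : b i = 0
  · show σ (b i) ∈ _
    rw [h0, map_zero]
    exact zero_mem _
  obtain ⟨c, hc⟩ := hμ _ (show (σ (b i) / b i) ^ N = 1 by
    rw [← Units.val_one, ← twist_pow hμ h0 (hb i) σ, Units.val_pow_eq_pow_val]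
    rfl)
  show σ (b i) ∈ adjoin F (Set.range b)
  rw [← div_mul_cancel₀ (σ (b i)) h0, ← hc]
  exact mul_mem (IntermediateField.algebraMap_mem _ c) (subset_adjoin F _ ⟨i, rfl⟩)

/-- The Galois group of several radicals is commutative. -/
theorem isMulCommutative_adjoin_radicals (hμ : ∀ ζ : Ω, ζ ^ N = 1 → ζ ∈ (algebraMap F Ω).range)
    (hb : ∀ i, b i ^ N ∈ (algebraMap F Ω).range) :
    IsMulCommutative (adjoin F (Set.range b) ≃ₐ[F] adjoin F (Set.range b)) := by
  refine ⟨⟨fun p q => AlgEquiv.ext fun x => ?_⟩⟩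
  obtain ⟨x, hx⟩ := x
  induction hx using adjoin_induction with
  | mem x hx =>
    obtain ⟨i, rfl⟩ := hx
    by_cases h0 : b i = 0
    · have : (⟨b i, subset_adjoin F _ ⟨i, rfl⟩⟩ : adjoin F (Set.range b)) = 0 := Subtype.ext h0
      rw [this, map_zero, map_zero]
    set y : adjoin F (Set.range b) := ⟨b i, subset_adjoin F _ ⟨i, rfl⟩⟩
    have hy0 : y ≠ 0 := fun h => h0 (congrArg Subtype.val h)
    obtain ⟨c, hc⟩ := hb i
    have hy : y ^ N = algebraMap F _ c := Subtype.ext hc.symm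
    have key : ∀ r : adjoin F (Set.range b) ≃ₐ[F] adjoin F (Set.range b),
        ∃ u : F, r y = algebraMap F _ u * y := fun r => by
      have h1 : ((r y / y : adjoin F (Set.range b)) : Ω) ^ N = 1 := by
        rw [← SubmonoidClass.coe_pow, div_pow, ← map_pow, hy, AlgEquiv.commutes, div_self]
        · rfl
        · rw [← hy]
          exact pow_ne_zero _ hy0
      obtain ⟨u, hu⟩ := hμ _ h1
      exact ⟨u, by rw [← (show r y / y = algebraMap F _ u from Subtype.ext hu.symm),
        div_mul_cancel₀ _ hy0]⟩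
    obtain ⟨u, hu⟩ := key p
    obtain ⟨u', hu'⟩ := key q
    rw [AlgEquiv.mul_apply, AlgEquiv.mul_apply, hu', map_mul, AlgEquiv.commutes, hu, map_mul,
      AlgEquiv.commutes, hu', ← mul_assoc, ← mul_assoc, mul_comm (algebraMap F _ u')]
  | algebraMap c =>
    show (p * q) (algebraMap F _ c) = (q * p) (algebraMap F _ c)
    rw [AlgEquiv.commutes, AlgEquiv.commutes]
  | add x y hx hy ihx ihy =>
    show (p * q) (⟨x, hx⟩ + ⟨y, hy⟩) = (q * p) (⟨x, hx⟩ + ⟨y, hy⟩)
    rw [map_add, map_add, ihx, ihy]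
  | inv x hx ih =>
    show (p * q) (⟨x, hx⟩⁻¹) = (q * p) (⟨x, hx⟩⁻¹)
    rw [map_inv₀, map_inv₀, ih]
  | mul x y hx hy ihx ihy =>
    show (p * q) (⟨x, hx⟩ * ⟨y, hy⟩) = (q * p) (⟨x, hx⟩ * ⟨y, hy⟩)
    rw [map_mul, map_mul, ihx, ihy]

end FA.MultKummer

end
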