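import Fermat.Agent.MultDetect.Radical
import Mathlib.LinearAlgebra.LinearIndependent.Basic
import Mathlib.GroupTheory.FiniteAbelian.Duality
import Mathlib.FieldTheory.IsAlgClosed.Basic

/-!
# Kummer independence

With the `N`-th roots of unity in the ground field, radicals with distinct classes are linearly
independent, and a tuple of radicals can be twisted by any roots of unity compatible with its
relations.
-/

set_option autoImplicit false
set_option linter.unusedSectionVars false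

noncomputable section

open IntermediateField

namespace FA.MultKummer

variable {F Ω : Type*} [Field F] [Field Ω] [Algebra F Ω] [IsGalois F Ω] {N : ℕ} [NeZero N]

/-- The twist of a radical by an automorphism. -/
def twist (hμ : ∀ ζ : Ω, ζ ^ N = 1 → ζ ∈ (algebraMap F Ω).range) {b : Ω} (hb0 : b ≠ 0)
    (hb : b ^ N ∈ (algebraMap F Ω).range) : (Ω ≃ₐ[F] Ω) →* Ωˣ :=
  MonoidHom.mk' (fun σ => Units.mk0 (σ b / b) (div_ne_zero ((map_ne_zero σ).2 hb0) hb0))
    fun σ τ => Units.ext (by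
      obtain ⟨c, hc⟩ := hμ (τ b / b) (by
        obtain ⟨d, hd⟩ := hb
        rw [div_pow, ← map_pow, ← hd, AlgEquiv.commutes, div_self]
        rw [hd]
        exact pow_ne_zero _ hb0)
      show (σ * τ) b / b = σ b / b * (τ b / b)
      conv_lhs => rw [AlgEquiv.mul_apply, show τ b = τ b / b * b from (div_mul_cancel₀ _ hb0).symm,
        map_mul, ← hc, AlgEquiv.commutes]
      rw [← hc]
      ring)

theorem twist_pow (hμ : ∀ ζ : Ω, ζ ^ N = 1 → ζ ∈ (algebraMap F Ω).range) {b : Ω} (hb0 : b ≠ 0)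
    (hb : b ^ N ∈ (algebraMap F Ω).range) (σ : Ω ≃ₐ[F] Ω) : twist hμ hb0 hb σ ^ N = 1 :=
  Units.ext (by
    obtain ⟨c, hc⟩ := hb
    rw [Units.val_pow_eq_pow_val, Units.val_one]
    show (σ b / b) ^ N = 1
    rw [div_pow, ← map_pow, ← hc, AlgEquiv.commutes, div_self]
    rw [hc]
    exact pow_ne_zero _ hb0)

/-- **Linear independence of radicals with distinct classes.** -/
theorem linearIndependent_radicals (hμ : ∀ ζ : Ω, ζ ^ N = 1 → ζ ∈ (algebraMap F Ω).range)
    {J : Type*} (w : J → Ω) (hw0 : ∀ j, w j ≠ 0) (hw : ∀ j, w j ^ N ∈ (algebraMap F Ω).range)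
    (hdist : ∀ i j, i ≠ j → w i / w j ∉ (algebraMap F Ω).range) : LinearIndependent F w := by
  let χ : J → ((Ω ≃ₐ[F] Ω) →* Ω) := fun j =>
    (Units.coeHom Ω).comp (twist hμ (hw0 j) (hw j))
  have hinj : Function.Injective χ := fun i j hij => by
    by_contra hne
    refine hdist i j hne ?_
    obtain ⟨c, hc⟩ := (InfiniteGalois.mem_bot_iff_fixed (w i / w j)).2 fun σ => by
      have h1 : σ (w i) / w i = σ (w j) / w j := DFunLike.congr_fun hij σ
      rw [div_eq_div_iff (hw0 i) (hw0 j)] at h1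
      rw [map_div₀, div_eq_div_iff ((map_ne_zero σ).2 (hw0 j)) (hw0 j), h1, mul_comm]
    exact ⟨c, hc⟩
  have hind := (linearIndependent_monoidHom (Ω ≃ₐ[F] Ω) Ω).comp χ hinj
  rw [linearIndependent_iff'] at hind ⊢
  intro s c hc i hi
  have h := hind s (fun j => algebraMap F Ω (c j) * w j) (funext fun σ => by
    rw [Finset.sum_apply, Pi.zero_apply]
    have h1 := congrArg σ hc
    rw [map_sum, map_zero] at h1
    rw [← h1]
    refine Finset.sum_congr rfl fun j _ => ?_
    show algebraMap F Ω (c j) * w j * (σ (w j) / w j) = σ (c j • w j)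
    rw [Algebra.smul_def, map_mul, AlgEquiv.commutes, mul_assoc, mul_div_cancel₀ _ (hw0 j)]) i hi
  rcases mul_eq_zero.1 h with h0 | h0
  · exact (map_eq_zero _).1 h0
  · exact absurd h0 (hw0 i)

/-- **Prescribed twists**: any twists compatible with the relations are induced. -/
theorem exists_aut_of_relations [IsAlgClosed Ω] [CharZero Ω] {κ : Type*} [Fintype κ]
    (hμ : ∀ ζ : Ω, ζ ^ N = 1 → ζ ∈ (algebraMap F Ω).range) {ζ : Ω} (hζ : IsPrimitiveRoot ζ N)
    (b : κ → Ω) (hb0 : ∀ i, b i ≠ 0) (hb : ∀ i, b i ^ N ∈ (algebraMap F Ω).range) (v : κ → ℕ)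
    (hrel : ∀ e : κ → ℤ, ∏ i, b i ^ e i ∈ (algebraMap F Ω).range →
      (N : ℤ) ∣ ∑ i, e i * (v i : ℤ)) :
    ∃ σ : Ω ≃ₐ[F] Ω, ∀ i, σ (b i) = ζ ^ v i * b i := by
  classical
  let Λ : (Ω ≃ₐ[F] Ω) →* (κ → rootsOfUnity N Ω) := MonoidHom.mk'
    (fun σ i => ⟨twist hμ (hb0 i) (hb i) σ,
      (mem_rootsOfUnity _ _).2 (twist_pow hμ (hb0 i) (hb i) σ)⟩)
    fun σ τ => funext fun i => Subtype.ext (map_mul _ σ τ)
  set g : rootsOfUnity N Ω := hζ.toRootsOfUnity
  have hg : ((g : Ωˣ) : Ω) = ζ := rfl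
  set t : κ → rootsOfUnity N Ω := fun i => g ^ v i
  suffices ht : t ∈ Λ.range by
    obtain ⟨σ, hσ⟩ := ht
    refine ⟨σ, fun i => ?_⟩
    have h1 : σ (b i) / b i = ζ ^ v i := by
      have h2 := congrArg (fun f : κ → rootsOfUnity N Ω => ((f i : Ωˣ) : Ω)) hσ
      simp only [t, SubmonoidClass.coe_pow, Units.val_pow_eq_pow_val, hg] at h2
      exact h2
    rw [← h1, div_mul_cancel₀ _ (hb0 i)]
  by_contra ht
  set A := (κ → rootsOfUnity N Ω) ⧸ Λ.range
  have : NeZero (Monoid.exponent A) := ⟨Monoid.exponent_ne_zero_of_finite⟩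
  obtain ⟨χ, hχ⟩ := CommGroup.exists_apply_ne_one_of_hasEnoughRootsOfUnity A Ω
    (a := QuotientGroup.mk t) fun h => ht ((QuotientGroup.eq_one_iff t).1 h)
  let Φ : (κ → rootsOfUnity N Ω) →* Ωˣ := χ.comp (QuotientGroup.mk' Λ.range)
  have hex : ∀ i, ∃ e : ℕ, ((Φ (Pi.mulSingle i g) : Ωˣ) : Ω) = ζ ^ e := fun i => by
    obtain ⟨e, -, he⟩ := hζ.eq_pow_of_pow_eq_one (ξ := ((Φ (Pi.mulSingle i g) : Ωˣ) : Ω)) (by
      rw [← Units.val_pow_eq_pow_val, ← map_pow, ← Pi.mulSingle_pow,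
        show g ^ N = 1 from Subtype.ext (by
          rw [SubmonoidClass.coe_pow, OneMemClass.coe_one]; exact (mem_rootsOfUnity _ _).1 g.2),
        Pi.mulSingle_one, map_one, Units.val_one])
    exact ⟨e, he.symm⟩
  choose e he using hex
  have hΦ : ∀ f, ((Φ f : Ωˣ) : Ω) = ∏ i, ((f i : Ωˣ) : Ω) ^ e i := fun f => by
    conv_lhs => rw [← Finset.univ_prod_mulSingle f, map_prod, Units.coe_prod]
    refine Finset.prod_congr rfl fun i _ => ?_
    obtain ⟨m, -, hm⟩ := hζ.eq_pow_of_pow_eq_one (ξ := ((f i : Ωˣ) : Ω))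
      (by rw [← Units.val_pow_eq_pow_val, (mem_rootsOfUnity _ _).1 (f i).2, Units.val_one])
    have hm' : f i = g ^ m := Subtype.ext (Units.ext (by
      rw [SubmonoidClass.coe_pow, Units.val_pow_eq_pow_val, hg, hm]))
    rw [hm', Pi.mulSingle_pow, map_pow, Units.val_pow_eq_pow_val, he, SubmonoidClass.coe_pow,
      Units.val_pow_eq_pow_val, hg, ← pow_mul, ← pow_mul, mul_comm]
  have hmem : ∏ i, b i ^ (e i : ℤ) ∈ (algebraMap F Ω).range := by
    obtain ⟨c, hc⟩ := (InfiniteGalois.mem_bot_iff_fixed (∏ i, b i ^ (e i : ℤ))).2 fun σ => by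
      have h1 : Φ (Λ σ) = 1 := by
        show χ (QuotientGroup.mk (Λ σ)) = 1
        rw [(QuotientGroup.eq_one_iff (N := Λ.range) _).2 ⟨σ, rfl⟩, map_one]
      have h2 := hΦ (Λ σ)
      rw [h1, Units.val_one] at h2
      rw [map_prod, ← one_mul (∏ i, b i ^ (e i : ℤ)), h2, ← Finset.prod_mul_distrib]
      refine Finset.prod_congr rfl fun i _ => ?_
      show σ (b i ^ (e i : ℤ)) = (σ (b i) / b i) ^ e i * b i ^ (e i : ℤ)
      rw [zpow_natCast, map_pow, ← mul_pow, div_mul_cancel₀ _ (hb0 i)]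
    exact ⟨c, hc⟩
  obtain ⟨d, hd⟩ := hrel (fun i => (e i : ℤ)) hmem
  refine hχ (Units.ext ?_)
  show ((Φ t : Ωˣ) : Ω) = 1
  rw [hΦ]
  simp only [t, SubmonoidClass.coe_pow, Units.val_pow_eq_pow_val, hg, ← pow_mul,
    Finset.prod_pow_eq_pow_sum]
  rw [← zpow_natCast ζ, Nat.cast_sum]
  simp only [Nat.cast_mul, mul_comm (v _ : ℤ)]
  rw [hd, zpow_mul, zpow_natCast, hζ.pow_eq_one, one_zpow]

/-- **The degree of several radicals is at most `N ^ r`.** -/
theorem finrank_adjoin_le (s : Finset Ω) (hs : ∀ b ∈ s, b ^ N ∈ (algebraMap F Ω).range) :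
    Module.finrank F (adjoin F (s : Set Ω)) ≤ N ^ s.card := by
  classical
  induction s using Finset.induction_on with
  | empty => rw [Finset.coe_empty, adjoin_empty, IntermediateField.finrank_bot, Finset.card_empty,
      pow_zero]
  | @insert b s hb ih =>
    let L : IntermediateField F Ω := adjoin F (s : Set Ω)
    obtain ⟨c, hc⟩ := hs b (Finset.mem_insert_self b s)
    have hdeg : Module.finrank L (adjoin L ({b} : Set Ω)) ≤ N := by
      rw [adjoin.finrank (Algebra.IsIntegral.isIntegral b)]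
      refine (Polynomial.natDegree_le_of_dvd (minpoly.dvd L b
        (p := Polynomial.X ^ N - Polynomial.C (algebraMap F L c)) ?_)
        (Polynomial.monic_X_pow_sub_C _ (NeZero.ne N)).ne_zero).trans
        Polynomial.natDegree_X_pow_sub_C.le
      simp [← hc, ← IsScalarTower.algebraMap_apply]
    rw [Finset.card_insert_of_notMem hb, pow_succ, Finset.coe_insert, Set.insert_eq,
      Set.union_comm, ← adjoin_adjoin_left]
    show Module.finrank F (adjoin L ({b} : Set Ω)) ≤ _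
    rw [← Module.finrank_mul_finrank F L (adjoin L ({b} : Set Ω))]
    exact Nat.mul_le_mul (ih fun c hc => hs c (Finset.mem_insert_of_mem hc)) hdeg

end FA.MultKummer

end
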