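import Fermat.Agent.MultKummer.Uniform
import Fermat.Agent.MultKummer.Independence

/-!
# The degree of a Kummer extension

For multiplicatively independent elements the degree of the field of their `N`-th roots over the
field of `N`-th roots of unity is `N ^ r` up to a bounded factor.
-/

set_option autoImplicit false
set_option linter.unusedSectionVars false

noncomputable section

open NumberField IntermediateField
open FA.MultDetect (radical radical_pow radical_ne_zero)

namespace FA.MultKummer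

universe u

variable {K : Type u} [Field K] [NumberField K] {ι : Type*} [Fintype ι]

local notation "Ω" => AlgebraicClosure K

/-- Multiplicative independence. -/
def MultIndep (a : ι → Kˣ) : Prop := ∀ e : ι → ℤ, ∏ i, a i ^ e i = 1 → e = 0

theorem isGalois_cyclo (N : ℕ) : IsGalois (cyclo K N) Ω :=
  have : IsGalois K Ω := { }
  IsGalois.tower_top_of_isGalois K (cyclo K N) Ω

theorem rootsOfUnity_mem_range (N : ℕ) (z : Ω) (hz : z ^ N = 1) :
    z ∈ (algebraMap (cyclo K N) Ω).range := ⟨⟨z, mem_cyclo hz⟩, rfl⟩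

theorem algebraMap_mem_range (N : ℕ) (c : K) :
    algebraMap K Ω c ∈ (algebraMap (cyclo K N) Ω).range :=
  ⟨algebraMap K (cyclo K N) c, (IsScalarTower.algebraMap_apply K (cyclo K N) Ω c).symm⟩

/-- The power of a monomial in the radicals. -/
theorem monomial_pow (N : ℕ) [NeZero N] (a : ι → Kˣ) (e : ι → ℤ) :
    (∏ i, radical N (a i) ^ e i) ^ N = algebraMap K Ω ((∏ i, a i ^ e i : Kˣ) : K) := by
  rw [← Finset.prod_pow, Units.coe_prod, map_prod]
  refine Finset.prod_congr rfl fun i _ => ?_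
  rw [Units.val_zpow_eq_zpow_val, map_zpow₀, ← radical_pow N (a i), ← zpow_natCast (radical N _),
    ← zpow_natCast (_ ^ e i), ← zpow_mul, ← zpow_mul, mul_comm]

/-- **The relations are nearly trivial.** -/
theorem exists_relation_bound {a : ι → Kˣ} (ha : MultIndep a) :
    ∃ C : ℕ, 0 < C ∧ ∀ N : ℕ, N ≠ 0 → ∀ e : ι → ℤ,
      (∃ y : cyclo K N, y ^ N = algebraMap K (cyclo K N) ((∏ i, a i ^ e i : Kˣ) : K)) →
      ∀ i, (N : ℤ) ∣ (C : ℤ) * e i := by
  classical
  obtain ⟨C, hC, hfail⟩ := exists_failure_bound (Γ := Subgroup.closure (Set.range a))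
    ((Subgroup.fg_iff _).2 ⟨Set.range a, rfl, Set.finite_range a⟩)
  refine ⟨C, hC, fun N hN e hy i => ?_⟩
  obtain ⟨δ, hδ, hCδ⟩ := hfail N hN _ (Subgroup.mem_closure_range_iff_of_fintype.2 ⟨e, rfl⟩) hy
  obtain ⟨e', rfl⟩ := Subgroup.mem_closure_range_iff_of_fintype.1 hδ
  have h0 := ha (fun i => (C : ℤ) * e i - (N : ℤ) * e' i) (by
    simp_rw [zpow_sub, Finset.prod_mul_distrib, Finset.prod_inv_distrib, mul_comm (C : ℤ),
      mul_comm (N : ℤ), zpow_mul, zpow_natCast, Finset.prod_pow]
    rw [hCδ, mul_inv_cancel])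
  exact ⟨e' i, sub_eq_zero.1 (congrFun h0 i)⟩

/-- **The degree of a Kummer extension.** -/
theorem exists_degree_bound {a : ι → Kˣ} (ha : MultIndep a) :
    ∃ C : ℕ, 0 < C ∧ ∀ (N : ℕ) [NeZero N],
      N ^ Fintype.card ι ≤ C * Module.finrank (cyclo K N)
        (adjoin (cyclo K N) (Set.range fun i => radical N (a i))) ∧
      Module.finrank (cyclo K N) (adjoin (cyclo K N) (Set.range fun i => radical N (a i))) ≤
        N ^ Fintype.card ι := by
  classical
  obtain ⟨C, hC, hrel⟩ := exists_relation_bound ha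
  refine ⟨C ^ Fintype.card ι, pow_pos hC _, fun N _ => ?_⟩
  set F := cyclo K N
  have hμ := rootsOfUnity_mem_range (K := K) N
  have : IsGalois F Ω := isGalois_cyclo N
  set s : Finset Ω := Finset.univ.image fun i => radical N (a i) with hs
  have hrange : Set.range (fun i => radical N (a i)) = (s : Set Ω) := by
    rw [hs, Finset.coe_image, Finset.coe_univ, Set.image_univ]
  have hsN : ∀ b ∈ s, b ^ N ∈ (algebraMap F Ω).range := fun b hb => by
    obtain ⟨i, -, rfl⟩ := Finset.mem_image.1 hb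
    rw [radical_pow]
    exact algebraMap_mem_range N _
  rw [hrange]
  set M := adjoin F (s : Set Ω)
  have : FiniteDimensional F M :=
    finiteDimensional_adjoin fun x _ => Algebra.IsIntegral.isIntegral x
  refine ⟨?_, (finrank_adjoin_le s hsN).trans (Nat.pow_le_pow_right (NeZero.pos N)
    (Finset.card_image_le.trans_eq Finset.card_univ))⟩
  -- `m = ⌈N / C⌉`
  obtain ⟨m, hm1, hm2⟩ : ∃ m : ℕ, N ≤ C * m ∧ ∀ k < m, C * k < N := by
    refine ⟨(N - 1) / C + 1, ?_, fun k hk => ?_⟩
    · have := Nat.lt_mul_div_succ (N - 1) hC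
      omega
    · have h1 : C * k ≤ C * ((N - 1) / C) := Nat.mul_le_mul_left C (by omega)
      have h2 := Nat.mul_div_le (N - 1) C
      have := NeZero.pos N
      omega
  let w : (ι → Fin m) → Ω := fun e => ∏ i, radical N (a i) ^ ((e i : ℕ) : ℤ)
  have hwM : ∀ e, w e ∈ M := fun e => prod_mem fun i _ => zpow_mem
    (subset_adjoin F _ (Finset.mem_image_of_mem _ (Finset.mem_univ i))) _
  have hw0 : ∀ e, w e ≠ 0 := fun e =>
    Finset.prod_ne_zero_iff.2 fun i _ => zpow_ne_zero _ (radical_ne_zero N (a i))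
  have hdist : ∀ e e', e ≠ e' → w e / w e' ∉ (algebraMap F Ω).range := by
    rintro e e' hne ⟨y, hy⟩
    refine hne (funext fun i => ?_)
    have h1 : ∏ i, radical N (a i) ^ (((e i : ℕ) : ℤ) - ((e' i : ℕ) : ℤ)) = w e / w e' := by
      rw [← Finset.prod_div_distrib]
      exact Finset.prod_congr rfl fun i _ => zpow_sub₀ (radical_ne_zero N (a i)) _ _
    have h2 := hrel N (NeZero.ne N) (fun i => ((e i : ℕ) : ℤ) - ((e' i : ℕ) : ℤ)) ⟨y,
      Subtype.ext (by
        show (algebraMap F Ω y) ^ N = _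
        rw [hy, ← h1, monomial_pow]
        rfl)⟩ i
    have hlt : |(C : ℤ) * (((e i : ℕ) : ℤ) - ((e' i : ℕ) : ℤ))| < N := by
      have h3 : (C : ℤ) * (e i : ℕ) < N := by exact_mod_cast hm2 _ (e i).2
      have h4 : (C : ℤ) * (e' i : ℕ) < N := by exact_mod_cast hm2 _ (e' i).2
      have h5 : (0 : ℤ) ≤ (C : ℤ) * (e i : ℕ) := by positivity
      have h6 : (0 : ℤ) ≤ (C : ℤ) * (e' i : ℕ) := by positivity
      rw [abs_lt, mul_sub]
      omega
    have h7 := Int.eq_zero_of_abs_lt_dvd h2 hlt
    rcases mul_eq_zero.1 h7 with h8 | h8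
    · omega
    · exact Fin.ext (by omega)
  have hlin := linearIndependent_radicals hμ w hw0 (fun e => by
    rw [monomial_pow]
    exact algebraMap_mem_range N _) hdist
  have hlin' : LinearIndependent F fun e => (⟨w e, hwM e⟩ : M) :=
    LinearIndependent.of_comp M.val.toLinearMap hlin
  have hcard := hlin'.fintype_card_le_finrank
  rw [Fintype.card_fun, Fintype.card_fin] at hcard
  calc N ^ Fintype.card ι ≤ (C * m) ^ Fintype.card ι := Nat.pow_le_pow_left hm1 _
    _ = C ^ Fintype.card ι * m ^ Fintype.card ι := mul_pow _ _ _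
    _ ≤ _ := Nat.mul_le_mul_left _ hcard

end FA.MultKummer

end
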