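import Fermat.Agent.MultSupport.Main
import Fermat.Agent.ArtinReciprocity.Frobenius

/-!
# Frobenius elements and power residues

At a prime whose Frobenius element twists an `N`-th root of `c` by `z`, the power residue symbol
of `c` is `z`; roots of unity are distinct modulo almost every prime.
-/

set_option autoImplicit false
set_option linter.unusedSectionVars false

noncomputable section

open NumberField IsDedekindDomain
open FA.ArtinRec
open FA.HasseCyclic (nearOne)

namespace FA.MultKummer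

variable {F : Type*} [Field F] [NumberField F]

/-- Roots of unity are distinct modulo almost every prime. -/
theorem finite_roots_near_one (N : ℕ) [NeZero N] :
    {v : HeightOneSpectrum (𝓞 F) | ∃ z : Fˣ, z ^ N = 1 ∧ z ≠ 1 ∧ z ∈ nearOne v 0}.Finite := by
  classical
  have : Finite (rootsOfUnity N F) := inferInstance
  refine (Set.finite_iUnion fun z : rootsOfUnity N F =>
    (?_ : {v : HeightOneSpectrum (𝓞 F) | (z : Fˣ) ≠ 1 ∧ (z : Fˣ) ∈ nearOne v 0}.Finite)).subset
      fun v ⟨z, hzN, hz1, hzv⟩ => Set.mem_iUnion.2 ⟨⟨z, (mem_rootsOfUnity _ _).2 hzN⟩, hz1, hzv⟩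
  by_cases hz : (z : Fˣ) = 1
  · exact Set.finite_empty.subset fun v hv => (hv.1 hz).elim
  obtain ⟨d, hd⟩ : ∃ d : Fˣ, (d : F) = ((z : Fˣ) : F) - 1 :=
    ⟨Units.mk0 _ (sub_ne_zero.2 fun h1 => hz (Units.ext h1)), rfl⟩
  refine (finite_ord_ne_zero d).subset fun v hv h0 => ?_
  have h1 := MultSupport.mem_nearOne_zero_iff.1 hv.2
  rw [← hd, (ord_eq_iff (v := v)).1 h0, neg_zero, WithZero.exp_zero] at h1
  exact lt_irrefl _ h1

variable {M : Type*} [Field M] [NumberField M] [Algebra F M] [IsGalois F M]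

/-- **The power residue symbol by Frobenius.** -/
theorem pow_div_mem_nearOne_of_frob {N m : ℕ} [NeZero N] {w : HeightOneSpectrum (𝓞 F)}
    (hq : Nat.card (𝓞 F ⧸ w.asIdeal)ˣ = N * m) {A B : 𝓞 F} (hA : A ≠ 0) (hB : B ≠ 0)
    (hAw : A ∉ w.asIdeal) (hBw : B ∉ w.asIdeal) {r : Mˣ} {z : Fˣ} (hz : z ^ N = 1)
    (hr : r ^ N = baseU (intU A hA / intU B hB))
    (hg : (artinAt M w) (r : M) = algebraMap F M (z : F) * r) :
    (intU A hA / intU B hB) ^ m / z ∈ nearOne w 0 := by
  obtain ⟨Q, hQ, hfrob⟩ := artinAt_spec (L := M) w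
  subst hQ
  set g := artinAt M (belowP F Q)
  -- an integral multiple of the root
  have hRN : ((r : M) * algebraMap F M (B : F)) ^ N =
      algebraMap (𝓞 F) M (A * B ^ (N - 1)) := by
    have h1 : (r : M) ^ N = algebraMap F M ((A : F) / B) := by
      rw [← Units.val_pow_eq_pow_val, hr, baseU_val, Units.val_div_eq_div_val, intU_val, intU_val]
    rw [mul_pow, h1, ← map_pow, ← map_mul, IsScalarTower.algebraMap_apply (𝓞 F) F M,
      map_mul (algebraMap (𝓞 F) F), map_pow (algebraMap (𝓞 F) F)]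
    congr 1
    show (A : F) / B * (B : F) ^ N = (A : F) * (B : F) ^ (N - 1)
    rw [show (B : F) ^ N = B * (B : F) ^ (N - 1) by
      rw [← pow_succ', Nat.sub_add_cancel (NeZero.pos N)], ← mul_assoc,
      div_mul_cancel₀ _ (RingOfIntegers.coe_ne_zero_iff.mpr hB)]
  have hint : IsIntegral ℤ ((r : M) * algebraMap F M (B : F)) := IsIntegral.of_pow (NeZero.pos N)
    (by rw [hRN, IsScalarTower.algebraMap_apply (𝓞 F) (𝓞 M) M]
        exact RingOfIntegers.isIntegral_coe _)
  set R : 𝓞 M := ⟨_, hint⟩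
  have hzint : IsIntegral ℤ (z : F) := IsIntegral.of_pow (NeZero.pos N)
    (by rw [← Units.val_pow_eq_pow_val, hz, Units.val_one]; exact isIntegral_one)
  set zI : 𝓞 F := ⟨_, hzint⟩
  have hRpow : R ^ N = algebraMap (𝓞 F) (𝓞 M) (A * B ^ (N - 1)) := RingOfIntegers.ext (by
    show ((r : M) * algebraMap F M (B : F)) ^ N = _
    rw [hRN]
    rfl)
  have hgR : g • R = algebraMap (𝓞 F) (𝓞 M) zI * R := RingOfIntegers.ext (by
    show g ((r : M) * algebraMap F M (B : F)) = algebraMap F M (z : F) * ((r : M) * _)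
    rw [map_mul, hg, AlgEquiv.commutes, mul_assoc])
  -- reduce modulo `Q`
  have hcard : Nat.card (𝓞 F ⧸ Q.asIdeal.under (𝓞 F)) = N * m + 1 := by
    have := (belowP F Q).isMaximal
    let : Field (𝓞 F ⧸ (belowP F Q).asIdeal) := Ideal.Quotient.field _
    have h2 := Nat.card_units (𝓞 F ⧸ (belowP F Q).asIdeal)
    rw [hq] at h2
    have h3 : 0 < Nat.card (𝓞 F ⧸ (belowP F Q).asIdeal) := Nat.card_pos
    show Nat.card (𝓞 F ⧸ (belowP F Q).asIdeal) = _
    omega
  have hF : g • R - R ^ Nat.card (𝓞 F ⧸ Q.asIdeal.under (𝓞 F)) ∈ Q.asIdeal := hfrob R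
  rw [hgR, hcard, pow_succ, pow_mul, hRpow, ← map_pow, ← sub_mul, ← map_sub] at hF
  have hunder : ∀ {x : 𝓞 F}, algebraMap (𝓞 F) (𝓞 M) x ∈ Q.asIdeal → x ∈ (belowP F Q).asIdeal :=
    fun h => h
  have hBpow : B ^ (N * m) - 1 ∈ (belowP F Q).asIdeal := by
    have := (belowP F Q).isMaximal
    let : Field (𝓞 F ⧸ (belowP F Q).asIdeal) := Ideal.Quotient.field _
    obtain ⟨u, hu⟩ : IsUnit (Ideal.Quotient.mk (belowP F Q).asIdeal B) :=
      isUnit_iff_ne_zero.2 fun h => hBw (Ideal.Quotient.eq_zero_iff_mem.1 h)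
    rw [← Ideal.Quotient.eq_zero_iff_mem, map_sub, map_pow, map_one, ← hu, ← hq,
      ← Units.val_pow_eq_pow_val, pow_card_eq_one', Units.val_one, sub_self]
  have hkey : zI - (A * B ^ (N - 1)) ^ m ∈ (belowP F Q).asIdeal := by
    rcases Q.isPrime.mem_or_mem hF with h | h
    · exact hunder h
    · have h1 := Ideal.pow_mem_of_mem _ h N (NeZero.pos N)
      rw [hRpow] at h1
      rcases (belowP F Q).isPrime.mem_or_mem (hunder h1) with h2 | h2
      · exact absurd h2 hAw
      · exact absurd ((belowP F Q).isPrime.mem_of_pow_mem _ h2) hBw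
  have hzI0 : zI ≠ 0 := fun h => z.ne_zero (congrArg (algebraMap (𝓞 F) F) h)
  have hzw : zI * B ^ m ∉ (belowP F Q).asIdeal := by
    intro h
    rcases (belowP F Q).isPrime.mem_or_mem h with h | h
    · have h1 : zI ^ N ∈ (belowP F Q).asIdeal :=
        Ideal.pow_mem_of_mem _ h N (NeZero.pos N)
      rw [show zI ^ N = 1 from RingOfIntegers.ext (show (z : F) ^ N = 1 by
        rw [← Units.val_pow_eq_pow_val, hz, Units.val_one])] at h1
      exact (belowP F Q).isPrime.one_notMem h1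
    · exact hBw ((belowP F Q).isPrime.mem_of_pow_mem _ h)
  have hfin : intU (A ^ m) (pow_ne_zero m hA) /
      intU (zI * B ^ m) (mul_ne_zero hzI0 (pow_ne_zero m hB)) ∈ nearOne (belowP F Q) 0 := by
    refine (MultSupport.intU_div_mem_nearOne_iff _ _ hzw).2 ((Ideal.Quotient.eq.2 ?_).symm)
    have h1 : zI * B ^ m - A ^ m =
        (zI - (A * B ^ (N - 1)) ^ m) * B ^ m + A ^ m * (B ^ (N * m) - 1) := by
      have h2 : (B ^ (N - 1)) ^ m * B ^ m = B ^ (N * m) := by
        rw [← mul_pow, ← pow_succ, Nat.sub_add_cancel (NeZero.pos N), ← pow_mul]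
      rw [sub_mul, mul_pow A, mul_assoc, h2]
      ring
    rw [h1]
    exact Ideal.add_mem _ (Ideal.mul_mem_right _ _ hkey) (Ideal.mul_mem_left _ _ hBpow)
  have he : intU (A ^ m) (pow_ne_zero m hA) /
      intU (zI * B ^ m) (mul_ne_zero hzI0 (pow_ne_zero m hB)) =
      (intU A hA / intU B hB) ^ m / z := Units.ext (by
    simp only [Units.val_div_eq_div_val, Units.val_pow_eq_pow_val, intU_val, map_pow, div_pow]
    show (A : F) ^ m / ((z : F) * (B : F) ^ m) = (A : F) ^ m / (B : F) ^ m / (z : F)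
    rw [div_div, mul_comm (z : F)])
  rwa [he] at hfin

end FA.MultKummer

end
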