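import Fermat.Agent.MultKummer.Degree
import Fermat.Agent.MultKummer.Abelian

/-!
# A level with prescribed twists

For large `n` some automorphism over `K (ζ_{ℓ^n})` moves the next root of unity and twists the
radicals of multiplicatively independent elements by roots of unity of prescribed orders.
-/

set_option autoImplicit false
set_option linter.unusedSectionVars false

noncomputable section

open NumberField IntermediateField
open FA.LocalCFT
open FA.MultDetect (radical radical_pow radical_ne_zero)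

namespace FA.MultKummer

universe u

variable {K : Type u} [Field K] [NumberField K] (ℓ : ℕ) [hℓ : Fact ℓ.Prime]

local notation "Ω" => AlgebraicClosure K

/-- **The tower outgrows every finite extension.** -/
theorem exists_tower_not_le (X : IntermediateField K (AlgebraicClosure K)) [FiniteDimensional K X]
    (n₀ : ℕ) : ∃ n, n₀ ≤ n ∧ towerRoot K ℓ (n + 1) ∉ tower K ℓ n ⊔ X := by
  by_contra! hall
  set Y := tower K ℓ n₀ ⊔ X
  have hle : ∀ m, tower K ℓ (n₀ + m) ≤ Y := fun m => by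
    induction m with
    | zero => exact le_sup_left
    | succ m ih =>
      exact adjoin_simple_le_iff.2 (sup_le ih le_sup_right (hall _ (Nat.le_add_right n₀ m)))
  have : NumberField Y := NumberField.of_module_finite K Y
  set D := Module.finrank ℚ Y
  set z : Y := ⟨towerRoot K ℓ (n₀ + (D + 1)), hle (D + 1) (mem_adjoin_simple_self K _)⟩
  have hz : IsPrimitiveRoot z (ℓ ^ (n₀ + (D + 1))) :=
    IsPrimitiveRoot.of_map_of_injective (f := Y.val) (towerRoot_spec K ℓ (n₀ + (D + 1)))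
      Y.val.injective
  have h := totient_le_finrank (pow_pos hℓ.out.pos _) hz
  rw [Nat.totient_prime_pow hℓ.out (by omega)] at h
  have h2 : D < ℓ ^ D := Nat.lt_pow_self hℓ.out.one_lt
  have h3 : ℓ ^ D ≤ ℓ ^ (n₀ + (D + 1) - 1) := Nat.pow_le_pow_right hℓ.out.pos (by omega)
  have h4 : ℓ ^ (n₀ + (D + 1) - 1) ≤ ℓ ^ (n₀ + (D + 1) - 1) * (ℓ - 1) :=
    Nat.le_mul_of_pos_right _ (by have := hℓ.out.two_le; omega)
  omega

/-- **A level with prescribed twists.** -/
theorem exists_twisting_aut {ι : Type*} [Fintype ι] {a : ι → Kˣ} (ha : MultIndep a) (k : ι → ℕ) :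
    ∃ n : ℕ, 1 ≤ n ∧ (∀ i, k i ≤ n) ∧ ∃ σ : Ω ≃ₐ[tower K ℓ n] Ω,
      σ (towerRoot K ℓ (n + 1)) =
        towerRoot K ℓ n ^ ℓ ^ (n - 1) * towerRoot K ℓ (n + 1) ∧
      ∀ i, ∀ r : Ω, r ^ ℓ ^ n = algebraMap K Ω (a i : K) →
        σ r = towerRoot K ℓ n ^ ℓ ^ (n - k i) * r := by
  classical
  obtain ⟨C, hC, hrelC⟩ := exists_relation_bound ha
  obtain ⟨d, C', hC', hdC⟩ := Nat.exists_eq_pow_mul_and_not_dvd
    (Nat.mul_pos hℓ.out.pos hC).ne' ℓ hℓ.out.ne_one
  have : NeZero (ℓ ^ d) := ⟨pow_ne_zero d hℓ.out.ne_zero⟩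
  let X : IntermediateField K Ω := adjoin K (Set.range fun i => radical (ℓ ^ d) (a i))
  have : FiniteDimensional K X :=
    finiteDimensional_adjoin fun x _ => Algebra.IsIntegral.isIntegral x
  obtain ⟨n, hn, hnX⟩ := exists_tower_not_le ℓ X (1 + d + ∑ i, k i)
  have hkn : ∀ i, k i + d ≤ n := fun i => by
    have := Finset.single_le_sum (fun j _ => Nat.zero_le (k j)) (Finset.mem_univ i)
    omega
  set N := ℓ ^ n with hNdef
  have : NeZero N := ⟨pow_ne_zero n hℓ.out.ne_zero⟩
  set ζ := towerRoot K ℓ n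
  set ζ' := towerRoot K ℓ (n + 1)
  have hζ := towerRoot_spec K ℓ n
  have hζ' := towerRoot_spec K ℓ (n + 1)
  have hcyc : cyclo K N = tower K ℓ n := cyclo_eq hζ
  have hμ : ∀ z : Ω, z ^ N = 1 → z ∈ (algebraMap (tower K ℓ n) Ω).range :=
    fun z hz => ⟨⟨z, mem_tower_of_pow_eq_one K ℓ hz⟩, rfl⟩
  have hKr : ∀ c : K, algebraMap K Ω c ∈ (algebraMap (tower K ℓ n) Ω).range := fun c =>
    ⟨algebraMap K (tower K ℓ n) c, (IsScalarTower.algebraMap_apply K (tower K ℓ n) Ω c).symm⟩
  have : IsGalois K Ω := { }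
  have : IsGalois (tower K ℓ n) Ω := IsGalois.tower_top_of_isGalois K (tower K ℓ n) Ω
  have hζ'ℓ : (ζ' ^ N) ^ ℓ = 1 := by rw [← pow_mul, hNdef, ← pow_succ, hζ'.pow_eq_one]
  let b : Option ι → Ω := fun o => o.elim ζ' fun i => radical N (a i)
  let v : Option ι → ℕ := fun o => o.elim (ℓ ^ (n - 1)) fun i => ℓ ^ (n - k i)
  obtain ⟨σ, hσ⟩ := exists_aut_of_relations hμ hζ b (fun o => by
      cases o with
      | none => exact hζ'.ne_zero (pow_ne_zero _ hℓ.out.ne_zero)
      | some i => exact radical_ne_zero N (a i))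
    (fun o => by
      cases o with
      | none => exact hμ _ (by
          obtain ⟨t, ht⟩ := dvd_pow_self ℓ (show n ≠ 0 by omega)
          show (ζ' ^ N) ^ N = 1
          rw [show (ζ' ^ N) ^ N = ((ζ' ^ N) ^ ℓ) ^ t by rw [← pow_mul (ζ' ^ N), ← ht],
            hζ'ℓ, one_pow])
      | some i =>
          show radical N (a i) ^ N ∈ _
          rw [radical_pow]
          exact hKr _) v fun e he => by
    obtain ⟨f, hf⟩ := he
    rw [Fintype.prod_option] at hf
    have hf' : algebraMap (tower K ℓ n) Ω f =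
        ζ' ^ e none * ∏ i, radical N (a i) ^ e (some i) := hf
    -- the exponents of the radicals are divisible by `ℓ ^ (n - d)`
    have hdiv : ∀ i, ((ℓ ^ (n - d) : ℕ) : ℤ) ∣ e (some i) := fun i => by
      have h1 : ((f : Ω) ^ ℓ) ^ N =
          algebraMap K Ω ((∏ i, a i ^ ((ℓ : ℤ) * e (some i)) : Kˣ) : K) := by
        have hz1 : (ζ' ^ e none) ^ (ℓ * N) = 1 := by
          rw [← zpow_natCast, ← zpow_mul, mul_comm, zpow_mul, zpow_natCast, mul_comm ℓ N, pow_mul,
            hζ'ℓ, one_zpow]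
        have hP : ∏ i, radical N (a i) ^ ((ℓ : ℤ) * e (some i)) =
            (∏ i, radical N (a i) ^ e (some i)) ^ ℓ := by
          rw [← Finset.prod_pow]
          refine Finset.prod_congr rfl fun i _ => ?_
          rw [← zpow_natCast, ← zpow_mul, mul_comm]
        rw [← monomial_pow N a, hP, ← pow_mul, ← pow_mul,
          show (f : Ω) = algebraMap (tower K ℓ n) Ω f from rfl, hf', mul_pow, hz1, one_mul]
      have h2 := hrelC N (NeZero.ne N) (fun i => (ℓ : ℤ) * e (some i))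
        ⟨⟨(f : Ω) ^ ℓ, by rw [hcyc]; exact pow_mem f.2 ℓ⟩, Subtype.ext h1⟩ i
      rw [← mul_assoc, ← Nat.cast_mul, mul_comm C ℓ, hdC, Nat.cast_mul, mul_assoc,
        show N = ℓ ^ d * ℓ ^ (n - d) by
          rw [← pow_add, Nat.add_sub_cancel' (by omega : d ≤ n)], Nat.cast_mul] at h2
      have h3 := Int.dvd_of_mul_dvd_mul_left (Int.natCast_ne_zero.2 (NeZero.ne (ℓ ^ d))) h2
      refine (Int.natCast_dvd.2 ?_)
      have h4 := Int.natAbs_dvd_natAbs.2 h3
      rw [Int.natAbs_natCast, Int.natAbs_mul, Int.natAbs_natCast] at h4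
      exact (Nat.Coprime.pow_left _ ((hℓ.out.coprime_iff_not_dvd).2 hC')).dvd_of_dvd_mul_left h4
    -- so the exponent of `ζ'` is divisible by `ℓ`
    have hj : (ℓ : ℤ) ∣ e none := by
      by_contra hj
      refine hnX ?_
      have hmem : ζ' ^ e none ∈ tower K ℓ n ⊔ X := by
        rw [show ζ' ^ e none = algebraMap (tower K ℓ n) Ω f *
          (∏ i, radical N (a i) ^ e (some i))⁻¹ by
            rw [hf', mul_inv_cancel_right₀ (Finset.prod_ne_zero_iff.2 fun i _ =>
              zpow_ne_zero _ (radical_ne_zero N (a i)))]]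
        refine mul_mem (le_sup_left (b := X) f.2) (inv_mem (prod_mem fun i _ => ?_))
        obtain ⟨e', he'⟩ := hdiv i
        rw [he', zpow_mul, zpow_natCast]
        refine zpow_mem ?_ _
        have hroot : (radical N (a i) ^ ℓ ^ (n - d) / radical (ℓ ^ d) (a i)) ^ ℓ ^ n = 1 := by
          rw [show ℓ ^ n = ℓ ^ d * ℓ ^ (n - d) by
              rw [← pow_add, Nat.add_sub_cancel' (by omega : d ≤ n)],
            pow_mul, div_pow, ← pow_mul, ← pow_add, Nat.sub_add_cancel (by omega : d ≤ n),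
            ← hNdef, radical_pow, radical_pow, div_self ((map_ne_zero _).2 (a i).ne_zero),
            one_pow]
        rw [← div_mul_cancel₀ (radical N (a i) ^ ℓ ^ (n - d)) (radical_ne_zero (ℓ ^ d) (a i))]
        exact mul_mem (le_sup_left (b := X) (mem_tower_of_pow_eq_one K ℓ hroot))
          (le_sup_right (a := tower K ℓ n) (subset_adjoin K _ ⟨i, rfl⟩))
      obtain ⟨x, y, hxy⟩ : IsCoprime ((ℓ : ℤ) ^ (n + 1)) (e none) :=
        ((Nat.prime_iff_prime_int.1 hℓ.out).coprime_iff_not_dvd.2 hj).pow_left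
      have hone : ζ' ^ (((ℓ : ℤ) ^ (n + 1))) = 1 := by
        rw [← Nat.cast_pow, zpow_natCast, hζ'.pow_eq_one]
      rw [← zpow_one ζ', ← hxy, mul_comm x, mul_comm y, zpow_add₀
        (hζ'.ne_zero (pow_ne_zero _ hℓ.out.ne_zero)), zpow_mul, hone, one_zpow, one_mul, zpow_mul]
      exact zpow_mem hmem y
    rw [Fintype.sum_option]
    refine dvd_add ?_ (Finset.dvd_sum fun i _ => ?_)
    · show (N : ℤ) ∣ e none * ((ℓ ^ (n - 1) : ℕ) : ℤ)
      rw [show N = ℓ * ℓ ^ (n - 1) by
        rw [← pow_succ', Nat.sub_add_cancel (by omega : 1 ≤ n)], Nat.cast_mul]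
      exact mul_dvd_mul_right hj _
    · show (N : ℤ) ∣ e (some i) * ((ℓ ^ (n - k i) : ℕ) : ℤ)
      refine dvd_trans ?_ (mul_dvd_mul_right (hdiv i) _)
      rw [← Nat.cast_mul, Int.natCast_dvd_natCast, ← pow_add]
      exact pow_dvd_pow ℓ (by have := hkn i; omega)
  refine ⟨n, by omega, fun i => by have := hkn i; omega, σ, hσ none, fun i r hr => ?_⟩
  have hr0 : r ≠ 0 := fun h0 => (a i).ne_zero ((map_eq_zero (algebraMap K Ω)).1
    (by rw [← hr, h0, zero_pow (NeZero.ne N)]))
  obtain ⟨c, hc⟩ := hμ (r / radical N (a i)) (by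
    rw [div_pow, hr, radical_pow, div_self ((map_ne_zero _).2 (a i).ne_zero)])
  rw [← div_mul_cancel₀ r (radical_ne_zero N (a i)), ← hc, map_mul, AlgEquiv.commutes]
  have h1 : σ (radical N (a i)) = ζ ^ ℓ ^ (n - k i) * radical N (a i) := hσ (some i)
  rw [h1]
  ring

end FA.MultKummer

end
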