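import Fermat.Agent.MultKummer.Level
import Fermat.Agent.MultKummer.Frobenius

/-!
# Prescribed orders of reductions

For multiplicatively independent elements and a prime `ℓ` the exact `ℓ`-parts of the orders of the
reductions take every value simultaneously at infinitely many primes.
-/

set_option autoImplicit false
set_option linter.unusedSectionVars false

noncomputable section

open NumberField IsDedekindDomain IntermediateField
open FA.ArtinRec FA.LocalCFT
open FA.HasseCyclic (nearOne)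
open FA.MultDetect (radical radical_pow radical_ne_zero)

namespace FA.MultKummer

universe u

variable {K : Type u} [Field K] [NumberField K] (ℓ : ℕ) [hℓ : Fact ℓ.Prime]

local notation "Ω" => AlgebraicClosure K

/-- **Prescribed `ℓ`-parts of orders.** -/
theorem exists_order_parts {ι : Type*} [Fintype ι] {a : ι → Kˣ} (ha : MultIndep a) (k : ι → ℕ)
    {B : Set (HeightOneSpectrum (𝓞 K))} (hB : B.Finite) :
    ∃ v ∉ B, ∀ i, (∀ t : ℕ, a i ^ t ∈ nearOne v 0 → ℓ ^ k i ∣ t) ∧
      ∃ q : ℕ, ¬ ℓ ∣ q ∧ a i ^ (ℓ ^ k i * q) ∈ nearOne v 0 := by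
  classical
  obtain ⟨n, hn1, hkn, σ, hσ', hσr⟩ := exists_twisting_aut ℓ ha k
  have : NeZero (ℓ ^ n) := ⟨pow_ne_zero n hℓ.out.ne_zero⟩
  have : IsGalois K Ω := { }
  have : IsGalois (tower K ℓ n) Ω := IsGalois.tower_top_of_isGalois K (tower K ℓ n) Ω
  have hμ : ∀ z : Ω, z ^ ℓ ^ n = 1 → z ∈ (algebraMap (tower K ℓ n) Ω).range :=
    fun z hz => ⟨⟨z, mem_tower_of_pow_eq_one K ℓ hz⟩, rfl⟩
  have hζ' := towerRoot_spec K ℓ (n + 1)
  have hgen := towerGen_spec K ℓ n
  let b : Option ι → Ω := fun o => o.elim (towerRoot K ℓ (n + 1)) fun i => radical (ℓ ^ n) (a i)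
  have hζ'N : (towerRoot K ℓ (n + 1) ^ ℓ ^ n) ^ ℓ = 1 := by
    rw [← pow_mul, ← pow_succ, hζ'.pow_eq_one]
  have hζ'mem : towerRoot K ℓ (n + 1) ^ ℓ ^ n ∈ tower K ℓ n :=
    tower_le K ℓ hn1 (mem_tower_of_pow_eq_one K ℓ (k := 1) (by rw [pow_one, hζ'N]))
  have hb : ∀ o, b o ^ ℓ ^ n ∈ (algebraMap (tower K ℓ n) Ω).range := fun o => by
    cases o with
    | none => exact ⟨⟨_, hζ'mem⟩, rfl⟩
    | some i =>
      show radical (ℓ ^ n) (a i) ^ ℓ ^ n ∈ _
      rw [radical_pow]
      exact ⟨algebraMap K (tower K ℓ n) _,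
        (IsScalarTower.algebraMap_apply K (tower K ℓ n) Ω _).symm⟩
  let M : IntermediateField (tower K ℓ n) Ω := adjoin (tower K ℓ n) (Set.range b)
  have : FiniteDimensional (tower K ℓ n) M :=
    finiteDimensional_adjoin fun x _ => Algebra.IsIntegral.isIntegral x
  have : NumberField M := NumberField.of_module_finite (tower K ℓ n) M
  have : Normal (tower K ℓ n) M := normal_adjoin_radicals b hμ hb
  have : IsGalois (tower K ℓ n) M := ⟨⟩
  have : IsMulCommutative (M ≃ₐ[tower K ℓ n] M) := isMulCommutative_adjoin_radicals b hμ hb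
  set g : M ≃ₐ[tower K ℓ n] M := σ.restrictNormal M
  have hgval : ∀ x : M, ((g x : M) : Ω) = σ (x : Ω) := fun x => σ.restrictNormal_commutes M x
  -- the radicands and the twists
  set ε : (tower K ℓ n)ˣ := Units.mk0 _ (hgen.ne_zero (NeZero.ne (ℓ ^ n))) with hε
  let c : Option ι → (tower K ℓ n)ˣ := fun o => o.elim
    (Units.mk0 ⟨_, hζ'mem⟩ fun h0 =>
      pow_ne_zero (ℓ ^ n) (hζ'.ne_zero (pow_ne_zero _ hℓ.out.ne_zero)) (congrArg Subtype.val h0))
    fun i => baseU (a i)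
  let e : Option ι → ℕ := fun o => o.elim (ℓ ^ (n - 1)) fun i => ℓ ^ (n - k i)
  choose A C hA hC hAC using fun o => exists_intU_div (c o)
  set bad : Set (HeightOneSpectrum (𝓞 (tower K ℓ n))) :=
    ↑(primesAbove (tower K ℓ n) hB.toFinset) ∪
      {w | ((ℓ ^ n : ℕ) : 𝓞 (tower K ℓ n)) ∈ w.asIdeal} ∪
      {w | ∃ z : (tower K ℓ n)ˣ, z ^ ℓ ^ n = 1 ∧ z ≠ 1 ∧ z ∈ nearOne w 0} ∪
      ⋃ o, ({w | A o ∈ w.asIdeal} ∪ {w | C o ∈ w.asIdeal})
  have hfac : ∀ {x : 𝓞 (tower K ℓ n)}, x ≠ 0 →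
      {w : HeightOneSpectrum (𝓞 (tower K ℓ n)) | x ∈ w.asIdeal}.Finite := fun {x} hx =>
    (Ideal.finite_factors (I := Ideal.span {x}) (by simpa using hx)).subset fun w hw =>
      Ideal.dvd_span_singleton.2 hw
  have hbad : bad.Finite :=
    (((primesAbove _ hB.toFinset).finite_toSet.union
      (hfac (Nat.cast_ne_zero.2 (NeZero.ne (ℓ ^ n))))).union (finite_roots_near_one (ℓ ^ n))).union
        (Set.finite_iUnion fun o => (hfac (hA o)).union (hfac (hC o)))
  obtain ⟨w, hwg, hwbad⟩ := ((infinite_artinAt g).sdiff hbad).nonempty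
  simp only [bad, Set.mem_union, Finset.mem_coe, mem_primesAbove, Set.Finite.mem_toFinset,
    Set.mem_ofPred_eq, Set.mem_iUnion, not_or, not_exists] at hwbad
  obtain ⟨⟨⟨hwB, hwN⟩, hwroots⟩, hwAC⟩ := hwbad
  have hinjroots : ∀ z : (tower K ℓ n)ˣ, z ^ ℓ ^ n = 1 → z ∈ nearOne w 0 → z = 1 :=
    fun z hz hzw => by_contra fun h1 => hwroots z ⟨hz, h1, hzw⟩
  obtain ⟨m, hm⟩ := MultSupport.dvd_card_units (M := tower K ℓ n) (Q := w) hwN
  have hεN : ε ^ ℓ ^ n = 1 := Units.ext hgen.pow_eq_one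
  have hres : ∀ o, (c o) ^ m / ε ^ e o ∈ nearOne w 0 := fun o => by
    obtain ⟨hAw, hCw⟩ := hwAC o
    have hroot : b o ≠ 0 := by
      cases o with
      | none => exact hζ'.ne_zero (pow_ne_zero _ hℓ.out.ne_zero)
      | some i => exact radical_ne_zero _ (a i)
    let r : Mˣ := Units.mk0 ⟨b o, subset_adjoin _ _ ⟨o, rfl⟩⟩
      fun h0 => hroot (congrArg Subtype.val h0)
    have hr : r ^ ℓ ^ n = baseU (intU (A o) (hA o) / intU (C o) (hC o)) := by
      rw [← hAC o]
      cases o with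
      | none => exact Units.ext (Subtype.ext rfl)
      | some i =>
        refine Units.ext (Subtype.ext ?_)
        show radical (ℓ ^ n) (a i) ^ ℓ ^ n = _
        rw [radical_pow]
        rfl
    have hg : (artinAt M w) (r : M) =
        algebraMap (tower K ℓ n) M ((ε ^ e o : (tower K ℓ n)ˣ) : tower K ℓ n) * r := by
      rw [show artinAt M w = g from hwg]
      refine Subtype.ext ((hgval _).trans ?_)
      cases o with
      | none =>
        show σ (towerRoot K ℓ (n + 1)) = _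
        rw [hσ']
        rfl
      | some i =>
        show σ (radical (ℓ ^ n) (a i)) = _
        rw [hσr i _ (radical_pow _ _)]
        rfl
    rw [hAC o]
    exact pow_div_mem_nearOne_of_frob hm (hA o) (hC o) hAw hCw
      (by rw [← pow_mul, mul_comm, pow_mul, hεN, one_pow]) hr hg
  have hm' : ¬ ℓ ∣ m := by
    rintro ⟨t, ht⟩
    have h1 : (c none) ^ m = 1 := Units.ext (Subtype.ext (by
      show (towerRoot K ℓ (n + 1) ^ ℓ ^ n) ^ m = 1
      rw [ht, pow_mul, hζ'N, one_pow]))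
    have h2 := hres none
    rw [h1, one_div, inv_mem_iff] at h2
    have h3 := hinjroots _ (by rw [← pow_mul, mul_comm, pow_mul, hεN, one_pow]) h2
    exact hgen.pow_ne_one_of_pos_of_lt (pow_ne_zero _ hℓ.out.ne_zero)
      (Nat.pow_lt_pow_right hℓ.out.one_lt (by omega : n - 1 < n)) (congrArg Units.val h3)
  refine ⟨belowP K w, hwB, fun i => ⟨fun t ht => ?_, m, hm', ?_⟩⟩
  · have h1 : (c (some i)) ^ t ∈ nearOne w 0 := by
      show (baseU (a i)) ^ t ∈ _
      rw [← map_pow]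
      exact (MultSupport.baseU_mem_nearOne_iff _).2 ht
    have h2 : (ε ^ e (some i)) ^ t ∈ nearOne w 0 := by
      rw [show (ε ^ e (some i)) ^ t =
          ((c (some i)) ^ t) ^ m / (c (some i) ^ m / ε ^ e (some i)) ^ t by
        rw [div_pow, pow_right_comm (c (some i)) m t, div_div_cancel]]
      exact div_mem (pow_mem h1 m) (pow_mem (hres _) t)
    have h3 := hinjroots _
      (by rw [← pow_mul ε, ← pow_mul ε, mul_comm, pow_mul, hεN, one_pow]) h2
    have h4 : towerGen K ℓ n ^ (ℓ ^ (n - k i) * t) = 1 := by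
      rw [pow_mul]
      exact congrArg Units.val h3
    have h5 := (hgen.pow_eq_one_iff_dvd _).1 h4
    rw [show ℓ ^ n = ℓ ^ (n - k i) * ℓ ^ k i by rw [← pow_add, Nat.sub_add_cancel (hkn i)]] at h5
    exact Nat.dvd_of_mul_dvd_mul_left (pow_pos hℓ.out.pos _) h5
  · have h1 := pow_mem (hres (some i)) (ℓ ^ k i)
    rw [div_pow, ← pow_mul ε,
      show e (some i) * ℓ ^ k i = ℓ ^ n by
        show ℓ ^ (n - k i) * ℓ ^ k i = _
        rw [← pow_add, Nat.sub_add_cancel (hkn i)],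
      hεN, div_one, ← pow_mul, mul_comm m] at h1
    rw [← MultSupport.baseU_mem_nearOne_iff (M := tower K ℓ n), map_pow]
    exact h1

end FA.MultKummer

end
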