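import Fermat.Agent.MultKummer.Prescribed
import Fermat.Agent.MultSupport.Rational
import Mathlib.NumberTheory.Padics.PadicVal.Basic

/-!
# Orders of two and three

Infinitely many primes at which the order of `2` is odd and that of `3` is even.
-/

set_option autoImplicit false
set_option linter.unusedSectionVars false

noncomputable section

open NumberField IsDedekindDomain
open FA.HasseCyclic (nearOne)

namespace FA.MultKummer

/-- A prime in a prime ideal divides exactly the natural numbers there. -/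
theorem natCast_mem_iff_dvd {R : Type*} [CommRing R] (P : Ideal R) [P.IsPrime] {p : ℕ}
    (hp : p.Prime) (hpP : (p : R) ∈ P) (N : ℕ) : (N : R) ∈ P ↔ p ∣ N := by
  refine ⟨fun hN => by_contra fun hnd => ?_, fun ⟨q, hq⟩ => ?_⟩
  · have h1 := Nat.gcd_eq_gcd_ab p N
    rw [(hp.coprime_iff_not_dvd.2 hnd).gcd_eq_one] at h1
    have h2 := congrArg (Int.cast : ℤ → R) h1
    push_cast at h2
    exact Ideal.IsPrime.one_notMem ‹_› (h2 ▸ add_mem (P.mul_mem_right _ hpP) (P.mul_mem_right _ hN))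
  · rw [hq, Nat.cast_mul]
    exact P.mul_mem_right _ hpP

/-- Two and three are independent. -/
theorem multIndep_two_three :
    MultIndep ![Units.mk0 (2 : ℚ) two_ne_zero, Units.mk0 (3 : ℚ) three_ne_zero] := by
  intro e he
  have h1 : (2 : ℚ) ^ e 0 * (3 : ℚ) ^ e 1 = 1 := by
    have := congrArg Units.val he
    simpa [Fin.prod_univ_two] using this
  have : Fact (Nat.Prime 2) := ⟨Nat.prime_two⟩
  have : Fact (Nat.Prime 3) := ⟨Nat.prime_three⟩
  have h20 : ((2 : ℚ) ^ e 0) ≠ 0 := zpow_ne_zero _ two_ne_zero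
  have h30 : ((3 : ℚ) ^ e 1) ≠ 0 := zpow_ne_zero _ three_ne_zero
  have e2 := congrArg (padicValRat 2) h1
  have e3 := congrArg (padicValRat 3) h1
  rw [padicValRat.mul h20 h30, padicValRat.zpow, padicValRat.zpow, padicValRat.one] at e2 e3
  rw [show padicValRat 2 (2 : ℚ) = 1 by exact_mod_cast padicValRat.self (p := 2) (by norm_num),
    show padicValRat 2 (3 : ℚ) = 0 by
      rw [show (3 : ℚ) = ((3 : ℕ) : ℚ) by norm_num, padicValRat.of_nat,
        padicValNat.eq_zero_of_not_dvd (by norm_num : ¬ 2 ∣ 3)]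
      rfl] at e2
  rw [show padicValRat 3 (3 : ℚ) = 1 by exact_mod_cast padicValRat.self (p := 3) (by norm_num),
    show padicValRat 3 (2 : ℚ) = 0 by
      rw [show (2 : ℚ) = ((2 : ℕ) : ℚ) by norm_num, padicValRat.of_nat,
        padicValNat.eq_zero_of_not_dvd (by norm_num : ¬ 3 ∣ 2)]
      rfl] at e3
  funext i
  fin_cases i <;> simp <;> omega

/-- **Orders of two and three**: odd and even. -/
theorem infinite_two_odd_three_even :
    {p : ℕ | p.Prime ∧ Odd (orderOf (2 : ZMod p)) ∧ Even (orderOf (3 : ZMod p))}.Infinite := by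
  have : Fact (Nat.Prime 2) := ⟨Nat.prime_two⟩
  intro hfin
  have hB : {v : HeightOneSpectrum (𝓞 ℚ) | ∃ p : ℕ, p.Prime ∧
      (p ≤ 3 ∨ p ∈ hfin.toFinset) ∧ (p : 𝓞 ℚ) ∈ v.asIdeal}.Finite := by
    refine ((((Finset.range 4) ∪ hfin.toFinset).finite_toSet).biUnion fun p _ =>
      (?_ : {v : HeightOneSpectrum (𝓞 ℚ) | p.Prime ∧ (p : 𝓞 ℚ) ∈ v.asIdeal}.Finite)).subset ?_
    · by_cases hp : p.Prime
      · exact (Ideal.finite_factors (I := Ideal.span {(p : 𝓞 ℚ)})
          (by simpa using hp.ne_zero)).subset fun v hv => Ideal.dvd_span_singleton.2 hv.2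
      · exact Set.finite_empty.subset fun v hv => (hp hv.1).elim
    · rintro v ⟨p, hp, hpS, hpv⟩
      refine Set.mem_biUnion (x := p) ?_ ⟨hp, hpv⟩
      rcases hpS with h | h
      · exact Finset.mem_union_left _ (Finset.mem_range.2 (by omega))
      · exact Finset.mem_union_right _ h
  obtain ⟨v, hv, hparts⟩ := exists_order_parts 2 multIndep_two_three ![0, 1] hB
  obtain ⟨M, hM0, hM⟩ : ∃ M : ℕ, M ≠ 0 ∧ (M : 𝓞 ℚ) ∈ v.asIdeal :=
    ⟨Ideal.absNorm v.asIdeal, fun h0 => v.ne_bot (Ideal.absNorm_eq_zero_iff.1 h0),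
      Ideal.absNorm_mem _⟩
  obtain ⟨p, hp, -, hpv⟩ := MultSupport.exists_prime_factor_mem v.asIdeal M hM0 hM
  have hp3 : 3 < p := not_le.1 fun h => hv ⟨p, hp, Or.inl h, hpv⟩
  have hiff : ∀ (c : ℕ) (hc : 1 ≤ c) (z : ℚˣ), (z : ℚ) = c → ∀ t : ℕ,
      z ^ t ∈ nearOne v 0 ↔ orderOf (c : ZMod p) ∣ t := fun c hc z hz t => by
    rw [MultSupport.natCast_pow_mem_nearOne hc hz t,
      natCast_mem_iff_dvd v.asIdeal hp hpv, orderOf_dvd_iff_pow_eq_one,
      ← ZMod.natCast_eq_zero_iff, Nat.cast_sub (Nat.one_le_pow _ _ hc), Nat.cast_pow, Nat.cast_one,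
      sub_eq_zero]
  obtain ⟨h2, q, hq, hq2⟩ := hparts 0
  obtain ⟨h3, -⟩ := hparts 1
  have hodd : Odd (orderOf (2 : ZMod p)) := by
    have h := (hiff 2 (by norm_num) _ (by simp) _).1 hq2
    rw [Matrix.cons_val_zero, pow_zero, one_mul] at h
    exact Odd.of_dvd_nat (Nat.odd_iff.2 (Nat.two_dvd_ne_zero.1 hq)) h
  have heven : Even (orderOf (3 : ZMod p)) := by
    refine even_iff_two_dvd.2 ?_
    have h := h3 _ ((hiff 3 (by norm_num) _ (by simp) _).2 dvd_rfl)
    rwa [Matrix.cons_val_one, Matrix.cons_val_fin_one, pow_one] at h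
  exact hv ⟨p, hp, Or.inr (hfin.mem_toFinset.2 ⟨hp, hodd, heven⟩), hpv⟩

end FA.MultKummer

end
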