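import Fermat.Agent.MultDetect.Main
import Fermat.Agent.AbelianBinomial.Main

/-!
# Roots in cyclotomic fields, uniformly in the exponent

By Schinzel's theorem on abelian binomials an element with an `N`-th root in `K (ζ_N)` has its
`w`-th power, `w` the number of roots of unity, an `N`-th power in `K`; so roots of elements of a
finitely generated group are roots in the group up to one bounded exponent.
-/

set_option autoImplicit false
set_option linter.unusedSectionVars false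

noncomputable section

open NumberField IsDedekindDomain IntermediateField Polynomial
open FA.ArtinRec

namespace FA.MultKummer

universe u

variable {K : Type u} [Field K] [NumberField K]

local notation "Ω" => AlgebraicClosure K

/-- The field of the `N`-th roots of unity. -/
def cyclo (K : Type u) [Field K] [NumberField K] (N : ℕ) :
    IntermediateField K (AlgebraicClosure K) :=
  adjoin K {z | z ^ N = 1}

theorem mem_cyclo {N : ℕ} {z : Ω} (hz : z ^ N = 1) : z ∈ cyclo K N := subset_adjoin K _ hz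

theorem cyclo_eq {N : ℕ} [NeZero N] {ζ : Ω} (hζ : IsPrimitiveRoot ζ N) : cyclo K N = K⟮ζ⟯ := by
  refine le_antisymm (adjoin_le_iff.2 fun z hz => ?_)
    (adjoin_simple_le_iff.2 (mem_cyclo hζ.pow_eq_one))
  obtain ⟨i, -, rfl⟩ := hζ.eq_pow_of_pow_eq_one hz
  exact pow_mem (mem_adjoin_simple_self K ζ) i

instance finite_cyclo (N : ℕ) [NeZero N] : FiniteDimensional K (cyclo K N) := by
  obtain ⟨ζ, hζ⟩ := HasEnoughRootsOfUnity.exists_primitiveRoot Ω N
  rw [cyclo_eq hζ]
  exact adjoin.finiteDimensional (Algebra.IsIntegral.isIntegral ζ)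

instance numberField_cyclo (N : ℕ) [NeZero N] : NumberField (cyclo K N) :=
  NumberField.of_module_finite K _

/-- The number of roots of unity divides the order of the torsion units. -/
theorem natCard_rootsOfUnity_dvd (N : ℕ) [NeZero N] :
    Nat.card (rootsOfUnity N K) ∣ Units.torsionOrder K := by
  classical
  obtain ⟨g, hg⟩ := IsCyclic.exists_ofOrder_eq_natCard (α := rootsOfUnity N K)
  rw [← hg, ← Subgroup.orderOf_coe, ← orderOf_units]
  have hint : IsIntegral ℤ (((g : Kˣ) : K)) :=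
    IsIntegral.of_pow (NeZero.pos N) (by
      rw [← Units.val_pow_eq_pow_val, (mem_rootsOfUnity N _).1 g.2, Units.val_one]
      exact isIntegral_one)
  set z : 𝓞 K := ⟨((g : Kˣ) : K), hint⟩
  have hz : z ^ N = 1 := RingOfIntegers.ext (by
    show ((g : Kˣ) : K) ^ N = 1
    rw [← Units.val_pow_eq_pow_val, (mem_rootsOfUnity N _).1 g.2, Units.val_one])
  have htor : ((rootsOfUnity.mkOfPowEq z hz : rootsOfUnity N (𝓞 K)) : (𝓞 K)ˣ) ∈
      Units.torsion K := by
    rw [Units.torsion, CommGroup.mem_torsion, isOfFinOrder_iff_pow_eq_one]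
    exact ⟨N, NeZero.pos N, (mem_rootsOfUnity N _).1 (rootsOfUnity.mkOfPowEq z hz).2⟩
  have h := orderOf_dvd_natCard (⟨_, htor⟩ : Units.torsion K)
  rw [← Subgroup.orderOf_coe, ← orderOf_units, rootsOfUnity.val_mkOfPowEq_coe,
    ← orderOf_injective (algebraMap (𝓞 K) K : 𝓞 K →* K) RingOfIntegers.coe_injective] at h
  exact h

/-- **Descent from a cyclotomic field, uniformly.** -/
theorem exists_pow_descent_uniform {N : ℕ} [NeZero N] {x : Kˣ}
    (hx : ∃ y : cyclo K N, y ^ N = algebraMap K (cyclo K N) (x : K)) :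
    ∃ u : Kˣ, x ^ Units.torsionOrder K = u ^ N := by
  obtain ⟨ζ, hζ⟩ := HasEnoughRootsOfUnity.exists_primitiveRoot Ω N
  set C := cyclo K N
  obtain ⟨y, hy⟩ := hx
  have : IsCyclotomicExtension {N} K C := by
    have h := hζ.intermediateField_adjoin_isCyclotomicExtension K
    rwa [← cyclo_eq hζ] at h
  have hy' : (y : Ω) ^ N = algebraMap K Ω (x : K) := congrArg Subtype.val hy
  have hy0 : (y : Ω) ≠ 0 := fun h0 => x.ne_zero ((map_eq_zero (algebraMap K Ω)).1
    (by rw [← hy', h0, zero_pow (NeZero.ne N)]))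
  set P : K[X] := X ^ N - Polynomial.C (x : K)
  have hζC : IsPrimitiveRoot (⟨ζ, mem_cyclo hζ.pow_eq_one⟩ : C) N :=
    IsPrimitiveRoot.of_map_of_injective (f := C.val) hζ C.val.injective
  have hroot : ∀ w : Ω, w ∈ P.rootSet Ω ↔ w ^ N = algebraMap K Ω (x : K) := fun w => by
    rw [mem_rootSet_of_ne (monic_X_pow_sub_C _ (NeZero.ne N)).ne_zero]
    simp [sub_eq_zero]
  have : P.IsSplittingField K C := by
    rw [IntermediateField.isSplittingField_iff]
    refine ⟨?_, le_antisymm ?_ (adjoin_le_iff.2 fun w hw => ?_)⟩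
    · rw [Polynomial.map_sub, Polynomial.map_pow, map_X, map_C]
      exact X_pow_sub_C_splits_of_isPrimitiveRoot hζC hy
    · show cyclo K N ≤ _
      rw [cyclo_eq hζ, adjoin_simple_le_iff, ← mul_div_cancel_right₀ ζ hy0]
      refine div_mem (subset_adjoin K _ ((hroot _).2 ?_)) (subset_adjoin K _ ((hroot _).2 hy'))
      rw [mul_pow, hζ.pow_eq_one, one_mul, hy']
    · obtain ⟨i, -, hi⟩ := hζ.eq_pow_of_pow_eq_one (ξ := w / y) (by
        rw [div_pow, (hroot w).1 hw, ← hy', div_self (pow_ne_zero _ hy0)])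
      rw [SetLike.mem_coe, ← div_mul_cancel₀ w hy0, ← hi]
      exact mul_mem (pow_mem (mem_cyclo hζ.pow_eq_one) i) y.2
  obtain ⟨c, hc⟩ := AbelianBinomial.pow_of_commute (L := C) (n := N) (a := (x : K))
    (by exact_mod_cast NeZero.ne N) x.ne_zero fun σ τ =>
      hζC.autToPow_injective K (by rw [map_mul, map_mul, mul_comm])
  have hc0 : c ≠ 0 := fun h0 => pow_ne_zero _ x.ne_zero (by rw [hc, h0, zero_pow (NeZero.ne N)])
  obtain ⟨t, ht⟩ := natCard_rootsOfUnity_dvd (K := K) N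
  refine ⟨Units.mk0 c hc0 ^ t, Units.ext ?_⟩
  rw [Units.val_pow_eq_pow_val, Units.val_pow_eq_pow_val, Units.val_pow_eq_pow_val, Units.val_mk0,
    ← pow_mul, mul_comm t, pow_mul, ← hc, ht, pow_mul]

/-- **Saturation**: roots of elements of a finitely generated group are nearly in it. -/
theorem exists_saturation_bound {Γ : Subgroup Kˣ} (hΓ : Γ.FG) :
    ∃ D : ℕ, 0 < D ∧ ∀ (u : Kˣ) (N : ℕ), N ≠ 0 → u ^ N ∈ Γ → u ^ D ∈ Γ := by
  classical
  obtain ⟨S, hS⟩ := id hΓ
  set T := S.biUnion fun a => (finite_ord_ne_zero a).toFinset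
  set U := tUnit T
  have hΓU : Γ ≤ U := hS ▸ (Subgroup.closure_le _).2 fun a ha v hv => by
    by_contra h0
    exact hv (Finset.mem_biUnion.2 ⟨a, ha, by simpa using h0⟩)
  have : Group.FG U := (Group.fg_iff_subgroup_fg _).2 (FA.GrunwaldWang.fg_tUnit T)
  let : CommGroup (U ⧸ Γ.subgroupOf U) := inferInstance
  have hQ : Group.FG (U ⧸ Γ.subgroupOf U) := QuotientGroup.fg _
  have hfg : (⊤ : Subgroup (U ⧸ Γ.subgroupOf U)).FG := hQ.out
  obtain ⟨Φ, -, -, htf, D, hD, hdec⟩ := MultDetect.exists_free_part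
    (G := U ⧸ Γ.subgroupOf U) hfg
  refine ⟨D, hD, fun u N hN huN => ?_⟩
  have huU : u ∈ U := fun v hv => by
    have h1 := hΓU huN v hv
    rw [← zpow_natCast, ord_zpow] at h1
    simpa [hN] using h1
  set q : U ⧸ Γ.subgroupOf U := QuotientGroup.mk ⟨u, huU⟩
  have hqN : q ^ N = 1 := by
    rw [← QuotientGroup.mk_pow, QuotientGroup.eq_one_iff]
    exact huN
  obtain ⟨φ, hφ, hqφ⟩ := hdec q (Subgroup.mem_top q)
  have hφ1 : φ = 1 := htf φ hφ (isOfFinOrder_iff_pow_eq_one.2
    ⟨N * D, Nat.mul_pos (Nat.pos_of_ne_zero hN) hD, by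
      have h1 : (q / φ) ^ (N * D) = 1 := by rw [mul_comm, pow_mul, hqφ, one_pow]
      rwa [div_pow, pow_mul q, hqN, one_pow, one_div, inv_eq_one] at h1⟩)
  rw [hφ1, div_one, ← QuotientGroup.mk_pow, QuotientGroup.eq_one_iff] at hqφ
  exact hqφ

/-- **The bounded failure of Kummer theory, uniformly in the exponent.** -/
theorem exists_failure_bound {Γ : Subgroup Kˣ} (hΓ : Γ.FG) :
    ∃ C : ℕ, 0 < C ∧ ∀ N : ℕ, N ≠ 0 → ∀ γ ∈ Γ,
      (∃ y : cyclo K N, y ^ N = algebraMap K (cyclo K N) ((γ : Kˣ) : K)) →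
      ∃ δ ∈ Γ, γ ^ C = δ ^ N := by
  obtain ⟨D, hD, hsat⟩ := exists_saturation_bound hΓ
  refine ⟨Units.torsionOrder K * D, Nat.mul_pos (Units.torsionOrder_pos K) hD,
    fun N hN γ hγ hy => ?_⟩
  have : NeZero N := ⟨hN⟩
  obtain ⟨u, hu⟩ := exists_pow_descent_uniform hy
  refine ⟨u ^ D, hsat u N hN (hu ▸ pow_mem hγ _), ?_⟩
  rw [pow_mul, hu, ← pow_mul, ← pow_mul, mul_comm]

end FA.MultKummer

end
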